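import Mathlib
import Fermat.Agent.MU.Lib.MultRed.DecompQbar
import Fermat.Agent.MU.Lib.MultRed.NotInG1

section MergeWrap_E_P_Inertia -- from E/P/Inertia.lean

/-!
# E-P, step K2 (first half): inertia at `p` acts trivially modulo the kernel of reduction

`W / ℤ` with good or multiplicative reduction at the odd prime `p`, `A ∣ p`, `σ` in the inertia
group of `A`, `P` a `p`-torsion point of `E(Q̄)`: then `σ P - P` lies in the kernel of reduction.
-/

set_option autoImplicit false
set_option linter.unusedSectionVars false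

open WeierstrassCurve WeierstrassCurve.Affine

namespace Fermat.Agent.EP

open S05H5 S05H65 S05H75 Fermat.Agent.MultRed

variable (W : WeierstrassCurve ℤ) {p : ℕ} [Fact p.Prime] [DecidableEq (AlgebraicClosure ℚ)]
  (A : ValuationSubring (AlgebraicClosure ℚ)) (hA : A.LiesOverPrime p)

include hA

/-- the discriminant of the base change is a unit at a prime of good reduction -/
theorem val_Δ_eq_one_of_good (hΔ : ¬ (p : ℤ) ∣ W.Δ) :
    A.valuation ((W.map (Int.castRingHom ℚ))⁄(AlgebraicClosure ℚ)).Δ = 1 := by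
  have hp : p.Prime := Fact.out
  have hvp : A.valuation ((p : ℕ) : AlgebraicClosure ℚ) < 1 := A.mem_nonunits_iff.mp hA
  have hΔE : ((W.map (Int.castRingHom ℚ))⁄(AlgebraicClosure ℚ)).Δ
      = ((W.Δ : ℤ) : AlgebraicClosure ℚ) := by
    rw [baseChange_map_int]
    show (W.map (algebraMap ℤ (AlgebraicClosure ℚ))).Δ = _
    rw [WeierstrassCurve.map_Δ, eq_intCast]
  rw [hΔE]
  exact v_intCast_eq_one A.valuation hp hvp hΔ

/-- good reduction: `σ P - P` is in the kernel of reduction for `σ` in the inertia group -/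
theorem inertia_sub_inG1_of_good (hΔ : ¬ (p : ℤ) ∣ W.Δ)
    (σ : AlgebraicClosure ℚ ≃ₐ[ℚ] AlgebraicClosure ℚ) (hσ : σ ∈ A.inertiaSubgroupIn ℚ)
    (P : ((W.map (Int.castRingHom ℚ))⁄(AlgebraicClosure ℚ)).Point) :
    InG1 A.valuation (σ • P - P) := by
  have hint := intCoeff_map_int W A
  have ha₁ := (A.valuation_le_one_iff _).mpr hint.mem_a₁
  have ha₂ := (A.valuation_le_one_iff _).mpr hint.mem_a₂
  have ha₃ := (A.valuation_le_one_iff _).mpr hint.mem_a₃
  have ha₄ := (A.valuation_le_one_iff _).mpr hint.mem_a₄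
  have ha₆ := (A.valuation_le_one_iff _).mpr hint.mem_a₆
  obtain ⟨hb₂, hb₄, hb₆, hb₈⟩ := v_b_le_one A.valuation
    ((W.map (Int.castRingHom ℚ))⁄(AlgebraicClosure ℚ)).toAffine ha₁ ha₂ ha₃ ha₄ ha₆
  have hΔ1 := val_Δ_eq_one_of_good W A hA hΔ
  have hσd : σ ∈ A.decompositionSubgroup ℚ := inertiaIn_mem_decomp A σ hσ
  have : Algebra.IsAlgebraic ℚ (AlgebraicClosure ℚ) := AlgebraicClosure.isAlgebraic ℚ
  have hσv : ∀ a : AlgebraicClosure ℚ, A.valuation (σ a) = A.valuation a :=
    fun a => Fermat.Agent.S13Two.decomp_val_eq A σ hσd a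
  have hσi : ∀ a : AlgebraicClosure ℚ, A.valuation a ≤ 1 → A.valuation (σ a - a) < 1 := by
    intro a ha
    have := inertiaIn_sub_mem_nonunits A σ hσ ((A.valuation_le_one_iff a).mp ha)
    exact A.mem_nonunits_iff.mp this
  rcases P with _ | ⟨x, y, h⟩
  · left
    show σ • (0 : ((W.map (Int.castRingHom ℚ))⁄(AlgebraicClosure ℚ)).Point) - 0 = 0
    rw [sub_zero]
    exact smul_zero (A := ((W.map (Int.castRingHom ℚ))⁄(AlgebraicClosure ℚ)).Point) σ
  · have hmap : σ • (Point.some x y h : ((W.map (Int.castRingHom ℚ))⁄(AlgebraicClosure ℚ)).Point)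
        = Point.some (σ x) (σ y)
          ((Affine.baseChange_nonsingular (W.map (Int.castRingHom ℚ)).toAffine σ.toAlgHom.injective x y).mpr h) :=
      Point.map_some σ.toAlgHom h
    rw [hmap]
    by_cases hx : A.valuation x ≤ 1
    · have hy : A.valuation y ≤ 1 := v_y_le_one A.valuation
        ((W.map (Int.castRingHom ℚ))⁄(AlgebraicClosure ℚ)).toAffine ha₁ ha₂ ha₃ ha₄ ha₆ h.1 hx
      have hσx1 : A.valuation (σ x) ≤ 1 := by rw [hσv]; exact hx
      have hns : ¬ (A.valuation (((W.map (Int.castRingHom ℚ))⁄(AlgebraicClosure ℚ)).toAffine.a₁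
            * σ y - (3 * σ x ^ 2
              + 2 * ((W.map (Int.castRingHom ℚ))⁄(AlgebraicClosure ℚ)).toAffine.a₂ * σ x
              + ((W.map (Int.castRingHom ℚ))⁄(AlgebraicClosure ℚ)).toAffine.a₄)) < 1 ∧
          A.valuation (2 * σ y
            + ((W.map (Int.castRingHom ℚ))⁄(AlgebraicClosure ℚ)).toAffine.a₁ * σ x
            + ((W.map (Int.castRingHom ℚ))⁄(AlgebraicClosure ℚ)).toAffine.a₃) < 1) := by
        rintro ⟨h1, h2⟩
        have := v_Δ_lt_one_of_singular A.valuation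
          ((W.map (Int.castRingHom ℚ))⁄(AlgebraicClosure ℚ)).toAffine ha₁ ha₂
          ((Affine.baseChange_nonsingular (W.map (Int.castRingHom ℚ)).toAffine σ.toAlgHom.injective x y).mpr h).1
          hσx1 h1 h2
        rw [hΔ1] at this
        exact lt_irrefl _ this
      exact sub_eq_zero_or_one_lt_v_px A.valuation
        ((W.map (Int.castRingHom ℚ))⁄(AlgebraicClosure ℚ)).toAffine ha₁ ha₂
        ((Affine.baseChange_nonsingular (W.map (Int.castRingHom ℚ)).toAffine σ.toAlgHom.injective x y).mpr h) h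
        hσx1 hx (hσi x hx) (hσi y hy) hns
    · rw [not_le] at hx
      refine inG1_sub A.valuation hb₂ hb₄ hb₆ hb₈ (Or.inr ?_) (Or.inr ?_)
      · show 1 < A.valuation (σ x)
        rw [hσv]; exact hx
      · exact hx

/-- **K2 (a)**: at an odd prime `p` of good or multiplicative reduction, `σ P - P` lies in the
kernel of reduction for every `σ` in the inertia group and every `p`-torsion point `P`. -/
theorem inertia_sub_inG1 (hp2 : p ≠ 2) (hss : (p : ℤ) ∣ W.Δ → ¬ (p : ℤ) ∣ W.c₄)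
    (σ : AlgebraicClosure ℚ ≃ₐ[ℚ] AlgebraicClosure ℚ) (hσ : σ ∈ A.inertiaSubgroupIn ℚ)
    (P : ((W.map (Int.castRingHom ℚ))⁄(AlgebraicClosure ℚ)).Point) (hP : p • P = 0) :
    InG1 A.valuation (σ • P - P) := by
  have hp : p.Prime := Fact.out
  by_cases hΔ : (p : ℤ) ∣ W.Δ
  · have hodd : Odd p := hp.odd_of_ne_two hp2
    have h0 := inertia_sub_inE0v W hΔ (hss hΔ) A hA σ hσ hodd P hP
    have hns := (not_isSingPt_iff_inE0v _).mpr h0
    refine inG1_of_pow_smul_of_mult W hΔ (hss hΔ) A hA 1 hns ?_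
    rw [pow_one, nsmul_sub, smul_comm p σ P, hP, smul_zero, sub_zero]
  · exact inertia_sub_inG1_of_good W A hA hΔ σ hσ P

end Fermat.Agent.EP
end MergeWrap_E_P_Inertia
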