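import Mathlib
import Fermat.Prelude.Def_FLTPrelim_GaloisRep
import Fermat.Prelude.Def_FLTPrelim_Ramification
import Fermat.Agent.S05.H75.KerRed
import Fermat.Agent.S13.LpBudget
import Fermat.Agent.S05.H5.Galois
import Fermat.Agent.MU.Lib.MultRed.DecompQbar

section MergeWrap_E_P_TorsG1 -- from E/P/TorsG1.lean

/-!
# E-P, step K1 (core): torsion in the kernel of reduction is far from the origin

`K` a valued field, `W` a Weierstrass curve with integral `b`-invariants and `b₂ = 4 β` with `β`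
integral (automatic when `2` is a unit).  With `t = 1/x`:

* `pt_add_sub_cube`: the parallelogram law for `t` modulo `c ^ 3`
  (`t(P+Q) + t(P-Q) ≡ 2 t(P) + 2 t(Q) + b₂ t(P) t(Q)`);
* `pt_nsmul_cube`: `t (j • P) ≡ j² t + β c_j t²` modulo `|t| ^ 3`, `c_j = j² (j² - 1) / 3`;
* `val_natCast_le_val_pt`: if `n • P = 0`, `P ≠ 0` in the kernel of reduction and `n ∣ c_n`
  (e.g. `n` an odd prime), then `|n| ≤ |t(P)|`.
-/

set_option autoImplicit false
set_option linter.unusedSectionVars false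

namespace Fermat.Agent.EP

open WeierstrassCurve S05H65 S05H75

/-- the integers `c_j = j² (j² - 1) / 3` -/
def cseq : ℕ → ℤ
  | 0 => 0
  | 1 => 0
  | (j + 2) => 2 * cseq (j + 1) + 4 * ((j : ℤ) + 1) ^ 2 - cseq j

lemma cseq_add_two (j : ℕ) :
    cseq (j + 2) = 2 * cseq (j + 1) + 4 * ((j : ℤ) + 1) ^ 2 - cseq j := by
  rw [cseq]

lemma three_mul_cseq (j : ℕ) :
    3 * cseq j = (j : ℤ) ^ 2 * ((j : ℤ) ^ 2 - 1) ∧
      3 * cseq (j + 1) = ((j : ℤ) + 1) ^ 2 * (((j : ℤ) + 1) ^ 2 - 1) := by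
  induction j with
  | zero => simp [cseq]
  | succ j ih =>
    obtain ⟨h0, h1⟩ := ih
    refine ⟨by push_cast; exact h1, ?_⟩
    rw [cseq_add_two]
    push_cast
    linear_combination 2 * h1 - h0

lemma dvd_cseq_of_prime {p : ℕ} (hp : p.Prime) (hp2 : p ≠ 2) : (p : ℤ) ∣ cseq p := by
  by_cases h3 : p = 3
  · subst h3
    refine ⟨8, ?_⟩
    simp [cseq]
  · have h := (three_mul_cseq p).1
    have hdvd : (p : ℤ) ∣ 3 * cseq p := by
      rw [h]
      exact Dvd.dvd.mul_right (dvd_pow_self _ (by norm_num)) _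
    have hpi : Prime (p : ℤ) := Nat.prime_iff_prime_int.mp hp
    rcases hpi.dvd_or_dvd hdvd with h' | h'
    · exfalso
      have : p ∣ 3 := by exact_mod_cast h'
      have := (Nat.prime_dvd_prime_iff_eq hp Nat.prime_three).mp this
      exact h3 this
    · exact h'

section Val

variable {K : Type*} [Field K] [DecidableEq K] {Γ₀ : Type*} [LinearOrderedCommGroupWithZero Γ₀]
  (v : Valuation K Γ₀) {W : WeierstrassCurve.Affine K}

omit [DecidableEq K] in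
lemma val_intCast_le (n : ℤ) : v (n : K) ≤ 1 := by
  rcases Int.eq_nat_or_neg n with ⟨m, rfl | rfl⟩
  · simpa using val_natCast_le v m
  · simpa using val_natCast_le v m

omit v in
lemma cube_le_of_le_one {c : Γ₀} (hc : c ≤ 1) : c ^ 3 ≤ c ^ 2 := by
  calc c ^ 3 = c ^ 2 * c := pow_succ c 2
    _ ≤ c ^ 2 * 1 := mul_le_mul' le_rfl hc
    _ = c ^ 2 := mul_one _

section Core

variable (hb₂ : v W.b₂ ≤ 1) (hb₄ : v W.b₄ ≤ 1) (hb₆ : v W.b₆ ≤ 1) (hb₈ : v W.b₈ ≤ 1)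
include hb₂ hb₄ hb₆ hb₈

omit [DecidableEq K] in
lemma val_SPoly_sub_cube {c : Γ₀} (hc : c < 1) {t₁ t₂ : K} (h₁ : v t₁ ≤ c) (h₂ : v t₂ ≤ c) :
    v (SPoly W t₁ t₂ - (2 * (t₁ + t₂) + W.b₂ * (t₁ * t₂)) * MPoly W t₁ t₂) ≤ c ^ 3 := by
  have hc1 : c ≤ 1 := hc.le
  have h1' : v t₁ ≤ 1 := h₁.trans hc1
  have h2' : v t₂ ≤ 1 := h₂.trans hc1
  have h12 : v (t₁ * t₂) ≤ c ^ 2 := by
    rw [pow_two]; exact val_mul_le_mul v h₁ h₂
  have h12' : v (t₁ * t₂) ≤ 1 := by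
    rw [map_mul]
    calc v t₁ * v t₂ ≤ 1 * 1 := mul_le_mul' h1' h2'
      _ = 1 := one_mul 1
  have hsum : v (t₁ + t₂) ≤ c := v.map_add_le h₁ h₂
  have hsum1 : v (t₁ + t₂) ≤ 1 := hsum.trans hc1
  have h3 : v ((t₁ + t₂) * (t₁ * t₂)) ≤ c ^ 3 := by
    have := val_mul_le_mul v hsum h12
    calc v ((t₁ + t₂) * (t₁ * t₂)) ≤ c * c ^ 2 := this
      _ = c ^ 3 := by rw [← pow_succ']
  have h4 : v ((t₁ * t₂) * (t₁ * t₂)) ≤ c ^ 3 := by
    have := val_mul_le_mul v h12 h12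
    calc v ((t₁ * t₂) * (t₁ * t₂)) ≤ c ^ 2 * c ^ 2 := this
      _ = c ^ 3 * c := by rw [← pow_add, ← pow_succ]
      _ ≤ c ^ 3 * 1 := mul_le_mul' le_rfl hc1
      _ = c ^ 3 := mul_one _
  have h2 := val_two_le v
  have e : SPoly W t₁ t₂ - (2 * (t₁ + t₂) + W.b₂ * (t₁ * t₂)) * MPoly W t₁ t₂ =
      W.b₄ * ((t₁ + t₂) * (t₁ * t₂)) + W.b₆ * ((t₁ * t₂) * (t₁ * t₂))
      + (2 * (t₁ + t₂) + W.b₂ * (t₁ * t₂)) * (W.b₄ * (t₁ * t₂)
        + W.b₆ * ((t₁ + t₂) * (t₁ * t₂)) + W.b₈ * ((t₁ * t₂) * (t₁ * t₂))) := by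
    simp only [SPoly, MPoly]; ring
  rw [e]
  have hA : v (2 * (t₁ + t₂) + W.b₂ * (t₁ * t₂)) ≤ c := by
    refine v.map_add_le (val_le_mul v h2 hsum) (val_le_mul v hb₂ ?_)
    exact h12.trans (sq_le_self_of_le_one hc1)
  have hB : v (W.b₄ * (t₁ * t₂) + W.b₆ * ((t₁ + t₂) * (t₁ * t₂))
      + W.b₈ * ((t₁ * t₂) * (t₁ * t₂))) ≤ c ^ 2 := by
    refine v.map_add_le (v.map_add_le ?_ ?_) ?_
    · exact val_le_mul v hb₄ h12
    · exact val_le_mul v hb₆ (val_le_mul v hsum1 h12)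
    · exact val_le_mul v hb₈ (val_le_mul v h12' h12)
  refine v.map_add_le (v.map_add_le ?_ ?_) ?_
  · exact val_le_mul v hb₄ h3
  · exact val_le_mul v hb₆ h4
  · calc v ((2 * (t₁ + t₂) + W.b₂ * (t₁ * t₂)) * (W.b₄ * (t₁ * t₂)
          + W.b₆ * ((t₁ + t₂) * (t₁ * t₂)) + W.b₈ * ((t₁ * t₂) * (t₁ * t₂))))
        ≤ c * c ^ 2 := val_mul_le_mul v hA hB
      _ = c ^ 3 := by rw [← pow_succ']

/-- The parallelogram law for `t = 1/x` modulo `c ^ 3`. -/
theorem pt_add_sub_cube {c : Γ₀} (hc : c < 1) {P Q : W.Point} (hP : Good P) (hQ : Good Q)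
    (h₁ : v (pt P) ≤ c) (h₂ : v (pt Q) ≤ c) :
    v (pt (P + Q) + pt (P - Q) - 2 * pt P - 2 * pt Q - W.b₂ * (pt P * pt Q)) ≤ c ^ 3 := by
  have hM := val_MPoly v hb₄ hb₆ hb₈ hc h₁ h₂
  have hM0 : MPoly W (pt P) (pt Q) ≠ 0 := by
    intro h0; rw [h0, map_zero] at hM; exact zero_ne_one hM
  obtain ⟨-, -, hsum, -⟩ := pt_add_sub P Q hP hQ hM0
  have hS := val_SPoly_sub_cube v hb₂ hb₄ hb₆ hb₈ hc h₁ h₂
  have e : (pt (P + Q) + pt (P - Q) - 2 * pt P - 2 * pt Q - W.b₂ * (pt P * pt Q))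
      * MPoly W (pt P) (pt Q) =
      SPoly W (pt P) (pt Q) - (2 * (pt P + pt Q) + W.b₂ * (pt P * pt Q))
        * MPoly W (pt P) (pt Q) := by
    rw [← hsum]; ring
  have := congrArg v e
  rw [map_mul, hM, mul_one] at this
  rw [this]; exact hS

/-- Two-step induction: `t (j • P) ≡ j² t + β c_j t²` modulo `c³`, where `c = v (t P) < 1`. -/
theorem pt_nsmul_cube {β : K} (hβ : 4 * β = W.b₂) (hβv : v β ≤ 1) {P : W.Point} (hP : Good P)
    (hc : v (pt P) < 1) (j : ℕ) :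
    (Good (j • P) ∧
      v (pt (j • P) - (j : K) ^ 2 * pt P - β * (cseq j : K) * pt P ^ 2) ≤ v (pt P) ^ 3) ∧
    (Good ((j + 1) • P) ∧
      v (pt ((j + 1) • P) - ((j + 1 : ℕ) : K) ^ 2 * pt P
        - β * (cseq (j + 1) : K) * pt P ^ 2) ≤ v (pt P) ^ 3) := by
  induction j with
  | zero =>
    refine ⟨⟨?_, ?_⟩, ⟨?_, ?_⟩⟩
    · rw [zero_smul]; exact good_zero
    · simp [cseq]
    · rw [zero_add, one_smul]; exact hP
    · simp [cseq]
  | succ j ih =>
    obtain ⟨⟨hG0, hv0⟩, ⟨hG1, hv1⟩⟩ := ih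
    refine ⟨⟨hG1, hv1⟩, ?_⟩
    set c := v (pt P) with hcdef
    set t := pt P with htdef
    have hc1 : c ≤ 1 := hc.le
    have hcc : c ^ 2 ≤ c := sq_le_self_of_le_one hc1
    have hc32 : c ^ 3 ≤ c ^ 2 := cube_le_of_le_one hc1
    have ht2 : v (t ^ 2) ≤ c ^ 2 := by rw [map_pow]
    -- v (pt ((j+1) • P) - (j+1)² t) ≤ c²
    have hd1 : v (pt ((j + 1) • P) - ((j + 1 : ℕ) : K) ^ 2 * t) ≤ c ^ 2 := by
      have e : pt ((j + 1) • P) - ((j + 1 : ℕ) : K) ^ 2 * t =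
          (pt ((j + 1) • P) - ((j + 1 : ℕ) : K) ^ 2 * t - β * (cseq (j + 1) : K) * t ^ 2)
          + β * (cseq (j + 1) : K) * t ^ 2 := by ring
      rw [e]
      refine v.map_add_le (hv1.trans hc32) ?_
      rw [mul_assoc]
      exact val_le_mul v hβv (val_le_mul v (val_intCast_le v _) ht2)
    have hvj1 : v (pt ((j + 1) • P)) ≤ c := by
      have e : pt ((j + 1) • P) = (pt ((j + 1) • P) - ((j + 1 : ℕ) : K) ^ 2 * t)
          + ((j + 1 : ℕ) : K) ^ 2 * t := by ring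
      rw [e]
      refine v.map_add_le (hd1.trans hcc) ?_
      refine val_le_mul v ?_ le_rfl
      rw [map_pow]
      exact pow_le_one' (val_natCast_le v (j + 1)) 2
    obtain ⟨hGa, -, -, -, -⟩ :=
      step v hb₂ hb₄ hb₆ hb₈ hc hG1 hP hvj1 (le_refl c)
    have hpar := pt_add_sub_cube v hb₂ hb₄ hb₆ hb₈ hc hG1 hP hvj1 (le_refl c)
    have e1 : (j + 1) • P + P = (j + 1 + 1) • P := (succ_nsmul P (j + 1)).symm
    have e2 : (j + 1) • P - P = j • P := by
      rw [succ_nsmul]; abel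
    rw [e1, e2] at hpar
    rw [e1] at hGa
    refine ⟨hGa, ?_⟩
    have hprod : v (W.b₂ * ((pt ((j + 1) • P) - ((j + 1 : ℕ) : K) ^ 2 * t) * t)) ≤ c ^ 3 := by
      refine val_le_mul v hb₂ ?_
      calc v ((pt ((j + 1) • P) - ((j + 1 : ℕ) : K) ^ 2 * t) * t) ≤ c ^ 2 * c :=
            val_mul_le_mul v hd1 le_rfl
        _ = c ^ 3 := by rw [← pow_succ]
    have e : pt ((j + 1 + 1) • P) - ((j + 1 + 1 : ℕ) : K) ^ 2 * t
          - β * (cseq (j + 1 + 1) : K) * t ^ 2 =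
        (pt ((j + 1 + 1) • P) + pt (j • P) - 2 * pt ((j + 1) • P) - 2 * t
            - W.b₂ * (pt ((j + 1) • P) * t))
        - (pt (j • P) - (j : K) ^ 2 * t - β * (cseq j : K) * t ^ 2)
        + 2 * (pt ((j + 1) • P) - ((j + 1 : ℕ) : K) ^ 2 * t - β * (cseq (j + 1) : K) * t ^ 2)
        + W.b₂ * ((pt ((j + 1) • P) - ((j + 1 : ℕ) : K) ^ 2 * t) * t) := by
      rw [cseq_add_two, ← hβ]
      push_cast
      ring
    rw [e]
    refine v.map_add_le (v.map_add_le (v.map_sub_le hpar hv0) ?_) hprod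
    exact val_le_mul v (val_two_le v) hv1

/-- **K1 (core)**: a nonzero `n`-torsion point in the kernel of reduction has `|n| ≤ |1/x|`,
as soon as `n ∣ c_n = n² (n² - 1) / 3` (for instance `n` an odd prime). -/
theorem val_natCast_le_val_pt {β : K} (hβ : 4 * β = W.b₂) (hβv : v β ≤ 1) {n : ℕ}
    (hn : (n : ℤ) ∣ cseq n) {P : W.Point} (hP : InG1 v P) (hP0 : P ≠ 0) (hnP : n • P = 0) :
    v (n : K) ≤ v (pt P) := by
  by_contra hlt
  rw [not_le] at hlt
  rw [inG1_iff] at hP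
  obtain ⟨hG, hc⟩ := hP
  have hx : px P ≠ 0 := hG.resolve_left hP0
  have ht : pt P ≠ 0 := inv_ne_zero hx
  have hc0 : v (pt P) ≠ 0 := (Valuation.ne_zero_iff v).mpr ht
  have hcpos : 0 < v (pt P) := zero_lt_iff.mpr hc0
  have hnpos : 0 < v (n : K) := lt_of_le_of_lt zero_le hlt
  obtain ⟨⟨-, hv⟩, -⟩ := pt_nsmul_cube v hb₂ hb₄ hb₆ hb₈ hβ hβv hG hc n
  obtain ⟨k, hk⟩ := hn
  rw [hnP, pt_zero, zero_sub, hk] at hv
  set c := v (pt P) with hcdef
  set t := pt P with htdef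
  -- the second-order term is smaller than the first-order term
  have h2 : v (β * (((n : ℤ) * k : ℤ) : K) * t ^ 2) < v ((n : K) ^ 2 * t) := by
    have e : β * (((n : ℤ) * k : ℤ) : K) * t ^ 2 = (β * (k : K)) * ((n : K) * t ^ 2) := by
      push_cast; ring
    rw [e]
    have hβk : v (β * (k : K)) ≤ 1 := by
      have := val_le_mul v hβv (val_intCast_le v k)
      exact this
    refine lt_of_le_of_lt (val_le_mul v hβk le_rfl) ?_
    rw [map_mul, map_mul, map_pow, map_pow, ← hcdef]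
    calc v (n : K) * c ^ 2 = (v (n : K) * c) * c := by rw [pow_two, mul_assoc]
      _ < (v (n : K) * c) * v (n : K) :=
          mul_lt_mul_of_pos_left hlt (mul_pos hnpos hcpos)
      _ = v (n : K) ^ 2 * c := by rw [pow_two]; ac_rfl
  have h3 : v (-((n : K) ^ 2 * t) - β * (((n : ℤ) * k : ℤ) : K) * t ^ 2) = v ((n : K) ^ 2 * t) := by
    rw [sub_eq_add_neg]
    have : v (-(β * (((n : ℤ) * k : ℤ) : K) * t ^ 2)) < v (-((n : K) ^ 2 * t)) := by
      rwa [Valuation.map_neg, Valuation.map_neg]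
    rw [Valuation.map_add_eq_of_lt_left v this, Valuation.map_neg]
  rw [h3, map_mul, map_pow, ← hcdef] at hv
  -- hv : v n ^ 2 * c ≤ c ^ 3
  have h4 : v (n : K) ^ 2 ≤ c ^ 2 := by
    have : v (n : K) ^ 2 * c ≤ c ^ 2 * c := by rwa [← pow_succ]
    exact le_of_mul_le_mul_right this hcpos
  have h5 : v (n : K) ≤ c := le_of_pow_le_pow_left₀ (by norm_num) zero_le h4
  exact absurd hlt (not_lt.mpr h5)

end Core

end Val

end Fermat.Agent.EP
end MergeWrap_E_P_TorsG1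

section MergeWrap_E_P_Rational -- from E/P/Rational.lean

/-!
# E-P, step K1: a rational point of odd prime order `p` is not in the kernel of reduction at `p`

`W / ℤ` any integral Weierstrass model, `p` an odd prime, `A ∣ p` a valuation subring of `Q̄`.
A nonzero `G_ℚ`-fixed point `P` of `E(Q̄)` with `p • P = 0` is not in the kernel of reduction
at `A` (`not_inG1_of_fixed`).
-/

set_option autoImplicit false
set_option linter.unusedSectionVars false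

open WeierstrassCurve WeierstrassCurve.Affine

namespace Fermat.Agent.EP

open S05H5 S05H65 S05H75

section General

variable {K : Type*} [Field K] {Γ₀ : Type*} [LinearOrderedCommGroupWithZero Γ₀]
  (v : Valuation K Γ₀) (W : Affine K)

variable (ha₁ : v W.a₁ ≤ 1) (ha₂ : v W.a₂ ≤ 1) (ha₃ : v W.a₃ ≤ 1) (ha₄ : v W.a₄ ≤ 1)
  (ha₆ : v W.a₆ ≤ 1)
include ha₁ ha₂ ha₃ ha₄ ha₆

/-- on a point of the kernel of reduction `v x < v y` -/
lemma vx_lt_vy_of_int {x y : K} (h : W.Equation x y) (hx : 1 < v x) : v x < v y := by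
  by_contra hy
  rw [not_lt] at hy
  rw [Affine.equation_iff] at h
  have e : x ^ 3 = y ^ 2 + W.a₁ * x * y + W.a₃ * y - W.a₂ * x ^ 2 - W.a₄ * x - W.a₆ := by
    linear_combination -h
  have hx1 : (1 : Γ₀) ≤ v x := hx.le
  have hxx : v x ≤ v x ^ 2 := by
    rw [pow_two]
    calc v x = 1 * v x := (one_mul _).symm
      _ ≤ v x * v x := mul_le_mul' hx1 le_rfl
  have hx2 : (1 : Γ₀) ≤ v x ^ 2 := one_le_pow₀ hx.le
  have h1 : v (y ^ 2) ≤ v x ^ 2 := by
    rw [map_pow]; exact pow_le_pow_left₀ zero_le hy 2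
  have h2 : v (W.a₁ * x * y) ≤ v x ^ 2 := by
    rw [map_mul, map_mul, pow_two]
    calc v W.a₁ * v x * v y ≤ 1 * v x * v x :=
          mul_le_mul' (mul_le_mul' ha₁ le_rfl) hy
      _ = v x * v x := by rw [one_mul]
  have h2' : v (W.a₃ * y) ≤ v x ^ 2 := by
    rw [map_mul]
    calc v W.a₃ * v y ≤ 1 * v x := mul_le_mul' ha₃ hy
      _ = v x := one_mul _
      _ ≤ v x ^ 2 := hxx
  have h3 : v (W.a₂ * x ^ 2) ≤ v x ^ 2 := by
    rw [map_mul, map_pow]
    calc v W.a₂ * v x ^ 2 ≤ 1 * v x ^ 2 := mul_le_mul' ha₂ le_rfl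
      _ = v x ^ 2 := one_mul _
  have h3' : v (W.a₄ * x) ≤ v x ^ 2 := by
    rw [map_mul]
    calc v W.a₄ * v x ≤ 1 * v x := mul_le_mul' ha₄ le_rfl
      _ = v x := one_mul _
      _ ≤ v x ^ 2 := hxx
  have h4 : v W.a₆ ≤ v x ^ 2 := le_trans ha₆ hx2
  have h5 : v (x ^ 3) ≤ v x ^ 2 := by
    rw [e]
    exact Valuation.map_sub_le _ (Valuation.map_sub_le _ (Valuation.map_sub_le _
      (Valuation.map_add_le _ (Valuation.map_add_le _ h1 h2) h2') h3) h3') h4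
  rw [map_pow] at h5
  exact absurd h5 (not_le.mpr (pow_lt_pow_right₀ hx (by norm_num)))

/-- on a point of the kernel of reduction `v y ^ 2 = v x ^ 3` -/
lemma vy_sq_of_int {x y : K} (h : W.Equation x y) (hx : 1 < v x) : v y ^ 2 = v x ^ 3 := by
  have hxy := vx_lt_vy_of_int v W ha₁ ha₂ ha₃ ha₄ ha₆ h hx
  rw [Affine.equation_iff] at h
  have e : y * (y + (W.a₁ * x + W.a₃)) = x ^ 3 + (W.a₂ * x ^ 2 + W.a₄ * x + W.a₆) := by
    linear_combination h
  have hx1 : (1 : Γ₀) ≤ v x := hx.le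
  have hxx : v x ≤ v x ^ 2 := by
    rw [pow_two]
    calc v x = 1 * v x := (one_mul _).symm
      _ ≤ v x * v x := mul_le_mul' hx1 le_rfl
  have hx2 : (1 : Γ₀) ≤ v x ^ 2 := one_le_pow₀ hx.le
  have h1 : v (W.a₁ * x + W.a₃) < v y := by
    refine lt_of_le_of_lt (Valuation.map_add_le _ ?_ (ha₃.trans hx1)) hxy
    rw [map_mul]
    calc v W.a₁ * v x ≤ 1 * v x := mul_le_mul' ha₁ le_rfl
      _ = v x := one_mul _
  have h2 : v (y + (W.a₁ * x + W.a₃)) = v y := Valuation.map_add_eq_of_lt_left _ h1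
  have h3 : v (W.a₂ * x ^ 2 + W.a₄ * x + W.a₆) < v (x ^ 3) := by
    rw [map_pow]
    refine lt_of_le_of_lt ?_ (pow_lt_pow_right₀ hx (by norm_num : 2 < 3))
    refine Valuation.map_add_le _ (Valuation.map_add_le _ ?_ ?_) (le_trans ha₆ hx2)
    · rw [map_mul, map_pow]
      calc v W.a₂ * v x ^ 2 ≤ 1 * v x ^ 2 := mul_le_mul' ha₂ le_rfl
        _ = v x ^ 2 := one_mul _
    · rw [map_mul]
      calc v W.a₄ * v x ≤ 1 * v x := mul_le_mul' ha₄ le_rfl
        _ = v x := one_mul _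
        _ ≤ v x ^ 2 := hxx
  have h4 : v (x ^ 3 + (W.a₂ * x ^ 2 + W.a₄ * x + W.a₆)) = v (x ^ 3) :=
    Valuation.map_add_eq_of_lt_left _ h3
  have := congrArg v e
  rw [map_mul, h2, h4, map_pow] at this
  rw [pow_two]
  exact this

/-- a rational point of the kernel of reduction has `|1/x| ≤ |p|²` -/
theorem val_inv_le_sq_of_rat [CharZero K] {p : ℕ} (hp : p.Prime) (hvp : v (p : K) < 1)
    {x y : K} (h : W.Equation x y) (hx : 1 < v x) (rx ry : ℚ) (hrx : (rx : K) = x)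
    (hry : (ry : K) = y) : v x⁻¹ ≤ v (p : K) ^ 2 := by
  have hxy := vx_lt_vy_of_int v W ha₁ ha₂ ha₃ ha₄ ha₆ h hx
  have hsq := vy_sq_of_int v W ha₁ ha₂ ha₃ ha₄ ha₆ h hx
  have hx0 : x ≠ 0 := by
    intro h0; rw [h0, map_zero] at hx; exact not_lt.mpr zero_le hx
  have hy0 : y ≠ 0 := by
    intro h0; rw [h0, map_zero] at hxy; exact not_lt.mpr zero_le hxy
  have hrx0 : rx ≠ 0 := by
    rintro rfl; apply hx0; rw [← hrx]; simp
  have hry0 : ry ≠ 0 := by
    rintro rfl; apply hy0; rw [← hry]; simp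
  obtain ⟨k, hk⟩ := Fermat.Agent.S13Budget.v_ratCast_eq_zpow v hp hvp hrx0
  obtain ⟨m, hm⟩ := Fermat.Agent.S13Budget.v_ratCast_eq_zpow v hp hvp hry0
  rw [hrx] at hk
  rw [hry] at hm
  have hp0 : v (p : K) ≠ 0 := by
    rw [Valuation.ne_zero_iff]
    exact_mod_cast hp.ne_zero
  have hppos : 0 < v (p : K) := zero_lt_iff.mpr hp0
  -- 2 m = 3 k
  have h23 : 2 * m = 3 * k := by
    have h1 : v (p : K) ^ (m * 2) = v (p : K) ^ (k * 3) := by
      rw [zpow_mul, zpow_mul, ← hk, ← hm]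
      exact_mod_cast hsq
    have := zpow_right_injective₀ hppos (ne_of_lt hvp) h1
    omega
  -- k < 0
  have hkneg : k < 0 := by
    by_contra hk0
    rw [not_lt] at hk0
    obtain ⟨j, rfl⟩ := Int.eq_ofNat_of_zero_le hk0
    rw [zpow_natCast] at hk
    rw [hk] at hx
    exact absurd hx (not_lt.mpr (pow_le_one' hvp.le j))
  obtain ⟨j, hj⟩ : ∃ j : ℕ, (j : ℤ) = -k := ⟨(-k).toNat, by omega⟩
  have hj2 : 2 ≤ j := by omega
  rw [map_inv₀, hk, ← zpow_neg, ← hj, zpow_natCast]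
  exact pow_le_pow_right_of_le_one' hvp.le hj2

end General

section Qbar

/-- An element of `ℚ̄` fixed by the whole Galois group is rational. -/
theorem exists_ratCast_of_fixed (x : AlgebraicClosure ℚ)
    (hx : ∀ σ : AlgebraicClosure ℚ ≃ₐ[ℚ] AlgebraicClosure ℚ, σ x = x) :
    ∃ r : ℚ, (r : AlgebraicClosure ℚ) = x := by
  have h1 : Algebra.IsAlgebraic ℚ (AlgebraicClosure ℚ) := AlgebraicClosure.isAlgebraic ℚ
  have h2 : IsAlgClosure ℚ (AlgebraicClosure ℚ) := ⟨inferInstance, h1⟩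
  have h3 : IsGalois ℚ (AlgebraicClosure ℚ) := IsAlgClosure.isGalois ℚ (AlgebraicClosure ℚ)
  obtain ⟨r, hr⟩ :=
    (InfiniteGalois.mem_range_algebraMap_iff_fixed (k := ℚ) (K := AlgebraicClosure ℚ) x).mpr hx
  exact ⟨r, by rw [← hr]; simp⟩

variable (W : WeierstrassCurve ℤ) {p : ℕ} [Fact p.Prime] [DecidableEq (AlgebraicClosure ℚ)]
  (A : ValuationSubring (AlgebraicClosure ℚ)) (hA : A.LiesOverPrime p)

include hA

/-- **K1**: a nonzero rational point of odd prime order `p` is not in the kernel of reduction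
at a place over `p`. -/
theorem not_inG1_of_fixed (hp2 : p ≠ 2)
    {P : ((W.map (Int.castRingHom ℚ))⁄(AlgebraicClosure ℚ)).Point} (hP0 : P ≠ 0)
    (hpP : p • P = 0)
    (hfix : ∀ σ : AlgebraicClosure ℚ ≃ₐ[ℚ] AlgebraicClosure ℚ, σ • P = P) :
    ¬ InG1 A.valuation P := by
  intro hG
  have hp : p.Prime := Fact.out
  have hvp : A.valuation ((p : ℕ) : AlgebraicClosure ℚ) < 1 := A.mem_nonunits_iff.mp hA
  have hint := Fermat.Agent.MultRed.intCoeff_map_int W A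
  have ha₁ := (A.valuation_le_one_iff _).mpr hint.mem_a₁
  have ha₂ := (A.valuation_le_one_iff _).mpr hint.mem_a₂
  have ha₃ := (A.valuation_le_one_iff _).mpr hint.mem_a₃
  have ha₄ := (A.valuation_le_one_iff _).mpr hint.mem_a₄
  have ha₆ := (A.valuation_le_one_iff _).mpr hint.mem_a₆
  obtain ⟨hb₂, hb₄, hb₆, hb₈⟩ := v_b_le_one A.valuation
    ((W.map (Int.castRingHom ℚ))⁄(AlgebraicClosure ℚ)).toAffine ha₁ ha₂ ha₃ ha₄ ha₆
  -- `4` is a unit
  have h4 : A.valuation ((4 : ℕ) : AlgebraicClosure ℚ) = 1 := by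
    apply v_natCast_eq_one A.valuation hp hvp
    intro hdvd
    have h2 : p ∣ 2 := by
      have : p ∣ 2 * 2 := by simpa using hdvd
      rcases hp.dvd_mul.mp this with h | h <;> exact h
    exact hp2 ((Nat.prime_dvd_prime_iff_eq hp Nat.prime_two).mp h2)
  have h40 : (4 : AlgebraicClosure ℚ) ≠ 0 := by norm_num
  set E := ((W.map (Int.castRingHom ℚ))⁄(AlgebraicClosure ℚ)).toAffine with hE
  have hβ : 4 * (E.b₂ / 4) = E.b₂ := by field_simp
  have hβv : A.valuation (E.b₂ / 4) ≤ 1 := by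
    rw [map_div₀]
    have : A.valuation (4 : AlgebraicClosure ℚ) = 1 := by exact_mod_cast h4
    rw [this, div_one]
    exact hb₂
  have key := val_natCast_le_val_pt A.valuation hb₂ hb₄ hb₆ hb₈ hβ hβv
    (dvd_cseq_of_prime hp hp2) hG hP0 hpP
  rcases P with _ | ⟨x, y, hxy⟩
  · exact hP0 rfl
  · have hx : 1 < A.valuation x := by
      rcases hG with h | h
      · exact absurd h hP0
      · exact h
    have hσ : ∀ σ : AlgebraicClosure ℚ ≃ₐ[ℚ] AlgebraicClosure ℚ, σ x = x ∧ σ y = y := by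
      intro σ
      have h1 := hfix σ
      rw [Point.algEquiv_smul_def, Point.map_some] at h1
      simpa using h1
    obtain ⟨rx, hrx⟩ := exists_ratCast_of_fixed x (fun σ => (hσ σ).1)
    obtain ⟨ry, hry⟩ := exists_ratCast_of_fixed y (fun σ => (hσ σ).2)
    have h2 := val_inv_le_sq_of_rat A.valuation E ha₁ ha₂ ha₃ ha₄ ha₆ hp hvp hxy.1 hx rx ry
      hrx hry
    have h3 : A.valuation ((p : ℕ) : AlgebraicClosure ℚ) ≤
        A.valuation ((p : ℕ) : AlgebraicClosure ℚ) ^ 2 := by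
      refine le_trans key ?_
      simpa [pt, px] using h2
    have hp0 : A.valuation ((p : ℕ) : AlgebraicClosure ℚ) ≠ 0 := by
      rw [Valuation.ne_zero_iff]
      exact_mod_cast hp.ne_zero
    have h5 : A.valuation ((p : ℕ) : AlgebraicClosure ℚ) ^ 2 <
        A.valuation ((p : ℕ) : AlgebraicClosure ℚ) := by
      rw [pow_two]
      calc A.valuation ((p : ℕ) : AlgebraicClosure ℚ) * A.valuation ((p : ℕ) : AlgebraicClosure ℚ)
          < 1 * A.valuation ((p : ℕ) : AlgebraicClosure ℚ) :=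
            mul_lt_mul_of_pos_right hvp (zero_lt_iff.mpr hp0)
        _ = _ := one_mul _
    exact absurd h3 (not_le.mpr h5)

end Qbar

end Fermat.Agent.EP
end MergeWrap_E_P_Rational
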